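/-
S25lib / Props / Abstract (helper6, Project L = S25, block `Props`).

**The scheme-theoretic reductions for the properties of `J`** (no curve, no line bundle here):

* `surjective_of_geometric_points` : a morphism is surjective if every geometric point of the target
  lifts;
* `universallyClosed_of_surjective`, `compactSpace_of_surjective`,
  `geometricallyConnected_of_surjective`, `isProper_of_surjective` : a separated `k`-scheme locally
  of finite type which is the image of a proper (geometrically connected) `k`-scheme is proper
  (geometrically connected);
-/
import Mathlib

set_option autoImplicit false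

universe u

open CategoryTheory CategoryTheory.Limits AlgebraicGeometry

namespace Fermat.Agent.S25lib.Props

/-! ### surjectivity from geometric points -/

section Surj

variable {X Y : Scheme.{u}} (α : X ⟶ Y)

/-- a morphism is surjective as soon as every point of the target with values in an algebraically
closed field lifts -/
theorem surjective_of_geometric_points
    (h : ∀ (K : Type u) [Field K] [IsAlgClosed K] (s : Spec (CommRingCat.of K) ⟶ Y),
      ∃ s' : Spec (CommRingCat.of K) ⟶ X, s' ≫ α = s) : Surjective α := by
  constructor
  intro y
  let K := AlgebraicClosure (Y.residueField y)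
  let s : Spec (CommRingCat.of K) ⟶ Y :=
    Spec.map (CommRingCat.ofHom (algebraMap (Y.residueField y) K)) ≫ Y.fromSpecResidueField y
  obtain ⟨s', hs'⟩ := h K s
  let pt : Spec (CommRingCat.of K) := IsLocalRing.closedPoint K
  refine ⟨s' pt, ?_⟩
  have h1 : α (s' pt) = s pt := by
    rw [← hs']; rfl
  rw [h1]
  show Y.fromSpecResidueField y (Spec.map (CommRingCat.ofHom (algebraMap (Y.residueField y) K)) pt)
    = y
  have h2 : ∀ z : Spec (Y.residueField y), Y.fromSpecResidueField y z = y := by
    intro z
    have := Scheme.range_fromSpecResidueField y
    have hz : Y.fromSpecResidueField y z ∈ Set.range (Y.fromSpecResidueField y) := ⟨z, rfl⟩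
    rw [this] at hz
    exact hz
  exact h2 _

end Surj

/-! ### images of proper schemes -/

section Image

variable {S J X : Scheme.{u}} (j : J ⟶ S) (x : X ⟶ S) (α : X ⟶ J) (hα : α ≫ j = x)

include hα

theorem universallyClosed_of_surjective [UniversallyClosed x] [Surjective α] :
    UniversallyClosed j := by
  subst hα
  exact UniversallyClosed.of_comp_surjective α j

theorem compactSpace_of_surjective [CompactSpace X] [Surjective α] : CompactSpace J := by
  constructor
  have h : (Set.univ : Set J) = Set.range α := α.surjective.range_eq.symm
  rw [h, ← Set.image_univ]
  exact isCompact_univ.image α.continuous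

theorem geometricallyConnected_of_surjective [GeometricallyConnected x] [Surjective α] :
    GeometricallyConnected j := by
  subst hα
  constructor
  intro K _ y Z fst snd hP
  -- `X ×_S Spec K → J ×_S Spec K` is surjective with connected source
  let Z' := pullback (α ≫ j) y
  have hZ' : ConnectedSpace Z' :=
    GeometricallyConnected.geometrically_connectedSpace (f := α ≫ j) _ _ _
      (IsPullback.of_hasPullback (α ≫ j) y)
  let β : Z' ⟶ Z := hP.lift (pullback.fst (α ≫ j) y ≫ α) (pullback.snd (α ≫ j) y)
    (by rw [Category.assoc, pullback.condition])
  have hβ : IsPullback β (pullback.fst (α ≫ j) y) fst α := by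
    refine IsPullback.of_right ?_ (hP.lift_fst _ _ _) hP.flip
    have := (IsPullback.of_hasPullback (α ≫ j) y).flip
    convert this using 2
    exact hP.lift_snd _ _ _
  have hsurj : Surjective β := MorphismProperty.of_isPullback (P := @Surjective) hβ.flip ‹_›
  have : (Set.univ : Set Z) = Set.range β := β.surjective.range_eq.symm
  rw [connectedSpace_iff_univ, this, ← Set.image_univ]
  exact isConnected_univ.image _ β.continuous.continuousOn

theorem isProper_of_surjective [IsProper x] [Surjective α] [IsSeparated j]
    [LocallyOfFiniteType j] [IsAffine S] : IsProper j := by
  have h1 : UniversallyClosed j := universallyClosed_of_surjective j x α hα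
  have h2 : CompactSpace X := QuasiCompact.compactSpace_of_compactSpace x
  have h3 : CompactSpace J := compactSpace_of_surjective j x α hα
  have h4 : QuasiCompact j := HasAffineProperty.iff_of_isAffine.mpr h3
  exact { }

end Image

end Fermat.Agent.S25lib.Props
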